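/-
S55 / F-abs / DU-Defs : right exact `k`-linear functors on admissible finite representations and
the pairing `T(N) × Hom_Γ(N, μ) → k`, `⟨x, φ⟩ = tr (T(φ) x)`.
-/
import Fermat.Agent.S55.F.Chi

set_option autoImplicit false

namespace Fermat.Agent.S55.F

open Representation Module

noncomputable section

variable {k : Type} [Field k] {Γ : Type} [Group Γ]

/-- a right exact `k`-linear functor with finite dimensional values -/
structure RFun (C : CohTheory k Γ) where
  T : ∀ {V : Type} [AddCommGroup V] [Module k V], Representation k Γ V → ModuleCat.{0} k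
  map : ∀ {V W : Type} [AddCommGroup V] [Module k V] [AddCommGroup W] [Module k W]
    {ρ : Representation k Γ V} {σ : Representation k Γ W},
    ρ.IntertwiningMap σ →ₗ[k] (T ρ →ₗ[k] T σ)
  map_id : ∀ {V : Type} [AddCommGroup V] [Module k V] (ρ : Representation k Γ V),
    map (IntertwiningMap.id ρ) = LinearMap.id
  map_comp : ∀ {V W Z : Type} [AddCommGroup V] [Module k V] [AddCommGroup W] [Module k W]
    [AddCommGroup Z] [Module k Z] {ρ : Representation k Γ V} {σ : Representation k Γ W}
    {τ : Representation k Γ Z} (g : σ.IntertwiningMap τ) (f : ρ.IntertwiningMap σ),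
    map (g.comp f) = map g ∘ₗ map f
  fin : ∀ {V : Type} [AddCommGroup V] [Module k V] [Module.Finite k V]
    (ρ : Representation k Γ V), C.IsOpen ρ.ker → Module.Finite k (T ρ)
  exact : ∀ {R P M : Type} [AddCommGroup R] [Module k R] [AddCommGroup P] [Module k P]
    [AddCommGroup M] [Module k M] [Module.Finite k P] {ρR : Representation k Γ R}
    {ρP : Representation k Γ P} {ρM : Representation k Γ M} (S : SES ρR ρP ρM),
    C.IsOpen ρP.ker → Function.Exact (map S.i) (map S.π)
  surj : ∀ {R P M : Type} [AddCommGroup R] [Module k R] [AddCommGroup P] [Module k P]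
    [AddCommGroup M] [Module k M] [Module.Finite k P] {ρR : Representation k Γ R}
    {ρP : Representation k Γ P} {ρM : Representation k Γ M} (S : SES ρR ρP ρM),
    C.IsOpen ρP.ker → Function.Surjective (map S.π)

variable {C : CohTheory k Γ} (F : RFun C) (ω : Γ →* kˣ)
variable {N : Type} [AddCommGroup N] [Module k N]

/-- the pairing `⟨x, φ⟩ = tr (T(φ) x)` as a map `T(N) → Hom_Γ(N, μ)^∨` -/
def RFun.alpha (tr : F.T (mu ω) →ₗ[k] k) (ρ : Representation k Γ N) :
    F.T ρ →ₗ[k] Module.Dual k (ρ.IntertwiningMap (mu ω)) :=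
  LinearMap.mk₂ k (fun x φ => tr (F.map φ x))
    (fun x y φ => by simp) (fun c x φ => by simp) (fun x φ ψ => by simp) (fun c x φ => by simp)

@[simp] theorem RFun.alpha_apply (tr : F.T (mu ω) →ₗ[k] k) (ρ : Representation k Γ N)
    (x : F.T ρ) (φ : ρ.IntertwiningMap (mu ω)) : F.alpha ω tr ρ x φ = tr (F.map φ x) := rfl

/-- `H²` as a right exact functor, once finiteness and right exactness are known -/
def RFun.ofH2 (C : CohTheory k Γ)
    (hfin : ∀ {V : Type} [AddCommGroup V] [Module k V] [Module.Finite k V]
      (ρ : Representation k Γ V), C.IsOpen ρ.ker → Module.Finite k (C.H2 ρ))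
    (hsurj : ∀ {R P M : Type} [AddCommGroup R] [Module k R] [AddCommGroup P] [Module k P]
      [AddCommGroup M] [Module k M] [Module.Finite k P] {ρR : Representation k Γ R}
      {ρP : Representation k Γ P} {ρM : Representation k Γ M} (S : SES ρR ρP ρM),
      C.IsOpen ρP.ker → Function.Surjective (C.map2 S.π)) : RFun C where
  T := C.H2
  map := C.map2
  map_id := C.map2_id
  map_comp := C.map2_comp
  fin := hfin
  exact := fun S h => C.exact_map2_map2 S h
  surj := hsurj

end

end Fermat.Agent.S55.F
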