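/-
S55 / F-abs / DU-1 : naturality and surjectivity of `alpha`.
-/
import Fermat.Agent.S55.F.DU.Defs
import Fermat.Agent.S55.F.RT.Dual
import Fermat.Agent.S55.F.RT.KerCoker

set_option autoImplicit false

namespace Fermat.Agent.S55.F

open Representation Module

noncomputable section

variable {k : Type} [Field k] {Γ : Type} [Group Γ] {C : CohTheory k Γ} (F : RFun C) (ω : Γ →* kˣ)
variable {N : Type} [AddCommGroup N] [Module k N]

theorem RFun.alpha_naturality (tr : F.T (mu ω) →ₗ[k] k) {N' : Type} [AddCommGroup N'] [Module k N']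
    {ρ : Representation k Γ N} {σ : Representation k Γ N'} (f : ρ.IntertwiningMap σ) (x : F.T ρ)
    (φ : σ.IntertwiningMap (mu ω)) :
    F.alpha ω tr σ (F.map f x) φ = F.alpha ω tr ρ x (φ.comp f) := by
  rw [RFun.alpha_apply, RFun.alpha_apply, F.map_comp]
  rfl

/-- `φ ≠ 0` is onto, so `T(φ)` is onto, so `tr ∘ T(φ) ≠ 0`: the transpose of `alpha` is injective -/
theorem RFun.alpha_surjective (tr : F.T (mu ω) →ₗ[k] k) (htr : tr ≠ 0) [Module.Finite k N]
    (ρ : Representation k Γ N) (hρ : C.IsOpen ρ.ker) :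
    Function.Surjective (F.alpha ω tr ρ) := by
  have : Module.Finite k (F.T ρ) := F.fin ρ hρ
  rw [← LinearMap.flip_injective_iff₁]
  rw [← LinearMap.ker_eq_bot, LinearMap.ker_eq_bot']
  intro φ hφ
  by_contra hne
  have hsurj : Function.Surjective φ := surjective_of_ne_zero ω φ hne
  have hmap : Function.Surjective (F.map φ) := F.surj (kerSES φ hsurj) hρ
  apply htr
  ext y
  obtain ⟨x, rfl⟩ := hmap y
  have h1 := LinearMap.congr_fun hφ x
  simpa using h1

end

end Fermat.Agent.S55.F
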