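/-
S55 / F-abs / DU-2 : `alpha` is bijective on `CoInd_W Res N` for small `W`.
-/
import Fermat.Agent.S55.F.DU.Surj
import Fermat.Agent.S55.F.RT.Coind
import Fermat.Agent.S55.F.RT.Trans

set_option autoImplicit false

namespace Fermat.Agent.S55.F

open Representation Module

noncomputable section

variable {k : Type} [Field k] {Γ : Type} [Group Γ] {C : CohTheory k Γ} (F : RFun C) (ω : Γ →* kˣ)
variable {N : Type} [AddCommGroup N] [Module k N]

/-- isomorphic representations have isomorphic values -/
def RFun.equiv {N' : Type} [AddCommGroup N'] [Module k N'] {ρ : Representation k Γ N}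
    {σ : Representation k Γ N'} (e : ρ.Equiv σ) : F.T ρ ≃ₗ[k] F.T σ :=
  LinearEquiv.ofLinearMap (F.map e.toIntertwiningMap) (F.map e.symm.toIntertwiningMap)
    (by
      rw [← F.map_comp, ← Representation.Equiv.toIntertwiningMap_trans,
        Representation.Equiv.symm_trans, Representation.Equiv.toIntertwiningMap_refl, F.map_id])
    (by
      rw [← F.map_comp, ← Representation.Equiv.toIntertwiningMap_trans,
        Representation.Equiv.trans_symm, Representation.Equiv.toIntertwiningMap_refl, F.map_id])

/-- the value of a `k`-linear functor on a zero module is zero -/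
theorem RFun.subsingleton_T (ρ : Representation k Γ N) [Subsingleton N] :
    Subsingleton (F.T ρ) := by
  have h0 : IntertwiningMap.id ρ = 0 := by
    ext x
    exact Subsingleton.elim _ _
  have h1 : (LinearMap.id : F.T ρ →ₗ[k] F.T ρ) = 0 := by
    rw [← F.map_id, h0, map_zero]
  refine ⟨fun a b => ?_⟩
  have ha : a = 0 := LinearMap.congr_fun h1 a
  have hb : b = 0 := LinearMap.congr_fun h1 b
  rw [ha, hb]

theorem isOpen_ker_coindS_trivial (C : CohTheory k Γ) {W : Subgroup Γ} (hW : C.IsOpen W)
    (N : Type) [AddCommGroup N] [Module k N] :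
    C.IsOpen (coindS W (Representation.trivial k W N)).ker := by
  refine isOpen_ker_coindS C hW _ (C.isOpen_mono ?_ hW)
  intro g hg
  exact ⟨⟨g, hg⟩, (MonoidHom.mem_ker (f := Representation.trivial k W N)).2 rfl, rfl⟩

/-- subadditivity of `dim T` in short exact sequences -/
theorem RFun.finrank_le_add {R P M : Type} [AddCommGroup R] [Module k R] [AddCommGroup P]
    [Module k P] [AddCommGroup M] [Module k M] [Module.Finite k P] {ρR : Representation k Γ R}
    {ρP : Representation k Γ P} {ρM : Representation k Γ M} (S : SES ρR ρP ρM)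
    (hP : C.IsOpen ρP.ker) :
    finrank k (F.T ρP) ≤ finrank k (F.T ρR) + finrank k (F.T ρM) := by
  have : Module.Finite k R := S.finite_left
  have : Module.Finite k (F.T ρP) := F.fin ρP hP
  have : Module.Finite k (F.T ρR) := F.fin ρR (C.isOpen_mono S.ker_le_left hP)
  have h1 := LinearMap.finrank_range_add_finrank_ker (F.map S.π)
  have h2 : LinearMap.range (F.map S.π) = ⊤ := LinearMap.range_eq_top.2 (F.surj S hP)
  have h3 : LinearMap.ker (F.map S.π) = LinearMap.range (F.map S.i) :=
    LinearMap.exact_iff.1 (F.exact S hP)
  have h4 : finrank k (LinearMap.range (F.map S.i)) ≤ finrank k (F.T ρR) :=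
    LinearMap.finrank_range_le _
  rw [h2, h3, finrank_top] at h1
  omega

theorem RFun.finrank_coind_trivial_le {W : Subgroup Γ} (hW : C.IsOpen W)
    (N : Type) [AddCommGroup N] [Module k N] [Module.Finite k N] :
    finrank k (F.T (coindS W (Representation.trivial k W N))) ≤
      finrank k N * finrank k (F.T (X k W)) := by
  have : W.FiniteIndex := C.finiteIndex hW
  induction hn : finrank k N generalizing N with
  | zero =>
    have h1 : Subsingleton N := Module.finrank_zero_iff.1 hn
    have h2 : Subsingleton (coindV W.subtype (Representation.trivial k W N)) :=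
      ⟨fun a b => Subtype.ext (funext fun g => Subsingleton.elim _ _)⟩
    have h3 := F.subsingleton_T (coindS W (Representation.trivial k W N))
    rw [Module.finrank_zero_of_subsingleton]
    exact Nat.zero_le _
  | succ n ih =>
    obtain ⟨Q, _, _, _, S, hQ, -⟩ := exists_SES_trivial (k := k) (Γ := W) N (by omega)
    have h1 := F.finrank_le_add (S.coind W) (isOpen_ker_coindS_trivial C hW N)
    have h2 := ih Q (by omega)
    calc finrank k (F.T (coindS W (Representation.trivial k W N)))
        ≤ finrank k (F.T (X k W)) + finrank k (F.T (coindS W (Representation.trivial k W Q))) := h1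
      _ ≤ finrank k (F.T (X k W)) + n * finrank k (F.T (X k W)) := Nat.add_le_add_left h2 _
      _ = (n + 1) * finrank k (F.T (X k W)) := by ring

/-- intertwining maps out of a finite dimensional representation form a finite dimensional space -/
theorem finite_intertwiningMap {N' : Type} [AddCommGroup N'] [Module k N'] [Module.Finite k N]
    [Module.Finite k N'] (ρ : Representation k Γ N) (σ : Representation k Γ N') :
    Module.Finite k (ρ.IntertwiningMap σ) := by
  let j : ρ.IntertwiningMap σ →ₗ[k] (N →ₗ[k] N') :=
    { toFun := fun f => f.toLinearMap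
      map_add' := fun _ _ => rfl
      map_smul' := fun _ _ => rfl }
  exact Module.Finite.of_injective j (IntertwiningMap.toLinearMap_injective ρ σ)

theorem RFun.alpha_bijective_coindRes (tr : F.T (mu ω) →ₗ[k] k) (htr : tr ≠ 0)
    {W : Subgroup Γ} (hW : C.IsOpen W) (hWω : W ≤ ω.ker) (hX : finrank k (F.T (X k W)) ≤ 1)
    [Module.Finite k N] (ρ : Representation k Γ N) (hρ : W ≤ ρ.ker) :
    Function.Bijective (F.alpha ω tr (coindRes W ρ)) := by
  have : W.FiniteIndex := C.finiteIndex hW
  have hopen : C.IsOpen (coindRes W ρ).ker := isOpen_ker_coindRes C hW ρ (C.isOpen_mono hρ hW)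
  have hsurj : Function.Surjective (F.alpha ω tr (coindRes W ρ)) :=
    F.alpha_surjective ω tr htr (coindRes W ρ) hopen
  have hfinT : Module.Finite k (F.T (coindRes W ρ)) := F.fin _ hopen
  have hfinH : Module.Finite k ((coindRes W ρ).IntertwiningMap (mu ω)) := finite_intertwiningMap _ _
  have h1 : finrank k (F.T (coindRes W ρ)) ≤ finrank k N := by
    rw [(F.equiv (coindResEquivTrivial W ρ hρ)).finrank_eq]
    calc finrank k (F.T (coindS W (Representation.trivial k W N)))
        ≤ finrank k N * finrank k (F.T (X k W)) := F.finrank_coind_trivial_le hW N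
      _ ≤ finrank k N * 1 := Nat.mul_le_mul_left _ hX
      _ = finrank k N := Nat.mul_one _
  have h2 : finrank k (Module.Dual k ((coindRes W ρ).IntertwiningMap (mu ω))) = finrank k N := by
    rw [Subspace.dual_finrank_eq, finrank_hom_coindRes_mu ω W ρ hWω hρ]
  have h3 : finrank k (Module.Dual k ((coindRes W ρ).IntertwiningMap (mu ω))) ≤
      finrank k (F.T (coindRes W ρ)) := LinearMap.finrank_le_finrank_of_surjective hsurj
  have h4 : finrank k (F.T (coindRes W ρ)) =
      finrank k (Module.Dual k ((coindRes W ρ).IntertwiningMap (mu ω))) := by omega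
  exact ⟨(LinearMap.injective_iff_surjective_of_finrank_eq_finrank h4).2 hsurj, hsurj⟩

end

end Fermat.Agent.S55.F
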