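/-
S55 / F-abs / DU-3 : `alpha` is bijective (four lemma on a presentation by induced modules).
-/
import Fermat.Agent.S55.F.DU.Induced
import Fermat.Agent.S55.F.RT.Trace

set_option autoImplicit false

namespace Fermat.Agent.S55.F

open Representation Module

noncomputable section

section Aux

variable {k : Type} [Field k] {Γ : Type} [Group Γ]
variable {R P M Z : Type} [AddCommGroup R] [Module k R] [AddCommGroup P] [Module k P]
  [AddCommGroup M] [Module k M] [AddCommGroup Z] [Module k Z]
  {ρR : Representation k Γ R} {ρP : Representation k Γ P} {ρM : Representation k Γ M}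
  {τ : Representation k Γ Z}

/-- a map killing the sub-object of a short exact sequence factors through the quotient -/
theorem SES.du_exists_factor (S : SES ρR ρP ρM) (ψ : ρP.IntertwiningMap τ)
    (h : ∀ r, ψ (S.i r) = 0) : ∃ φ : ρM.IntertwiningMap τ, φ.comp S.π = ψ := by
  obtain ⟨s, hs⟩ := LinearMap.exists_rightInverse_of_surjective S.π.toLinearMap
    (LinearMap.range_eq_top.2 S.surj)
  have hs' : ∀ m, S.π (s m) = m := fun m => DFunLike.congr_fun hs m
  have key : ∀ p, ψ (s (S.π p)) = ψ p := by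
    intro p
    have h1 : S.π (s (S.π p) - p) = 0 := by rw [map_sub, hs', sub_self]
    obtain ⟨r, hr⟩ := (S.exact _).1 h1
    have h2 := h r
    rw [hr, map_sub, sub_eq_zero] at h2
    exact h2
  refine ⟨⟨ψ.toLinearMap ∘ₗ s, fun g => ?_⟩, ?_⟩
  · ext m
    obtain ⟨p, rfl⟩ := S.surj m
    show ψ (s (ρM g (S.π p))) = τ g (ψ (s (S.π p)))
    rw [← S.π.isIntertwining, key, key, ψ.isIntertwining]
  · apply IntertwiningMap.ext
    ext p
    exact key p

/-- precomposition with an intertwining map, as a linear map -/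
def duPrecomp (f : ρR.IntertwiningMap ρP) (τ : Representation k Γ Z) :
    ρP.IntertwiningMap τ →ₗ[k] ρR.IntertwiningMap τ where
  toFun ψ := ψ.comp f
  map_add' a b := by
    apply IntertwiningMap.ext
    ext x
    rfl
  map_smul' c a := by
    apply IntertwiningMap.ext
    ext x
    rfl

@[simp] theorem duPrecomp_apply (f : ρR.IntertwiningMap ρP) (τ : Representation k Γ Z)
    (ψ : ρP.IntertwiningMap τ) : duPrecomp f τ ψ = ψ.comp f := rfl

end Aux

variable {k : Type} [Field k] {Γ : Type} [Group Γ] {C : CohTheory k Γ} (F : RFun C) (ω : Γ →* kˣ)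
variable {N : Type} [AddCommGroup N] [Module k N]

/-- the four lemma: `alpha` injective on the middle term and surjective on the sub-object implies
`alpha` injective on the quotient -/
theorem RFun.du_alpha_injective_of_SES (tr : F.T (mu ω) →ₗ[k] k)
    {R P M : Type} [AddCommGroup R] [Module k R] [AddCommGroup P] [Module k P]
    [AddCommGroup M] [Module k M] [Module.Finite k P] {ρR : Representation k Γ R}
    {ρP : Representation k Γ P} {ρM : Representation k Γ M} (S : SES ρR ρP ρM)
    (hP : C.IsOpen ρP.ker) (hinj : Function.Injective (F.alpha ω tr ρP))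
    (hsurj : Function.Surjective (F.alpha ω tr ρR)) :
    Function.Injective (F.alpha ω tr ρM) := by
  rw [injective_iff_map_eq_zero]
  intro x hx
  obtain ⟨y, rfl⟩ := F.surj S hP x
  -- the functional `alpha y` vanishes on the kernel of the restriction map
  have hann : F.alpha ω tr ρP y ∈ (LinearMap.ker (duPrecomp S.i (mu ω))).dualAnnihilator := by
    rw [Submodule.mem_dualAnnihilator]
    intro ψ hψ
    rw [LinearMap.mem_ker, duPrecomp_apply] at hψ
    obtain ⟨φ, rfl⟩ := S.du_exists_factor ψ (fun r => DFunLike.congr_fun hψ r)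
    rw [← F.alpha_naturality ω tr S.π y φ, hx]
    rfl
  rw [← LinearMap.range_dualMap_eq_dualAnnihilator_ker] at hann
  obtain ⟨l', hl'⟩ := hann
  obtain ⟨w, rfl⟩ := hsurj l'
  have heq : F.alpha ω tr ρP (F.map S.i w) = F.alpha ω tr ρP y := by
    rw [← hl']
    ext ψ
    rw [F.alpha_naturality ω tr S.i w ψ]
    rfl
  rw [← hinj heq]
  exact (F.exact S hP).apply_apply_eq_zero w

/-- THE ABSTRACT (0,2)-DUALITY -/
theorem RFun.alpha_bijective (hω : C.IsOpen ω.ker) (tr : F.T (mu ω) →ₗ[k] k) (htr : tr ≠ 0)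
    (hX : ∀ U : Subgroup Γ, C.IsOpen U → U ≤ ω.ker → finrank k (F.T (X k U)) ≤ 1)
    [Module.Finite k N] (ρ : Representation k Γ N) (hρ : C.IsOpen ρ.ker) :
    Function.Bijective (F.alpha ω tr ρ) := by
  refine ⟨?_, F.alpha_surjective ω tr htr ρ hρ⟩
  -- the presentation
  set W : Subgroup Γ := ρ.ker ⊓ ω.ker with hWdef
  have hW : C.IsOpen W := C.isOpen_inf hρ hω
  have hWω : W ≤ ω.ker := inf_le_right
  have hWρ : W ≤ ρ.ker := inf_le_left
  have : W.FiniteIndex := C.finiteIndex hW
  let S := kerSES (counit W ρ) (counit_surjective W ρ)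
  have hI0 : C.IsOpen (coindRes W ρ).ker := isOpen_ker_coindRes C hW ρ hρ
  have hR : C.IsOpen (kerRep (counit W ρ)).ker := C.isOpen_mono S.ker_le_left hI0
  have : Module.Finite k (LinearMap.ker (counit W ρ).toLinearMap) := S.finite_left
  have h1 := F.alpha_surjective (N := ↥(LinearMap.ker (counit W ρ).toLinearMap)) ω tr htr
    (kerRep (counit W ρ)) hR
  have h2 := (F.alpha_bijective_coindRes ω tr htr hW hWω (hX W hW hWω) ρ hWρ).1
  exact F.du_alpha_injective_of_SES ω tr S hI0 h2 h1

theorem RFun.finrank_eq (hω : C.IsOpen ω.ker) (hμ : Nontrivial (F.T (mu ω)))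
    (hX : ∀ U : Subgroup Γ, C.IsOpen U → U ≤ ω.ker → finrank k (F.T (X k U)) ≤ 1)
    [Module.Finite k N] (ρ : Representation k Γ N) (hρ : C.IsOpen ρ.ker) :
    finrank k (F.T ρ) = finrank k (ρ.IntertwiningMap (mu ω)) := by
  obtain ⟨v, hv⟩ := exists_ne (0 : F.T (mu ω))
  have : ∃ tr : F.T (mu ω) →ₗ[k] k, tr v ≠ 0 := by
    by_contra hcon
    push Not at hcon
    exact hv ((Module.forall_dual_apply_eq_zero_iff k v).1 hcon)
  obtain ⟨tr, htrv⟩ := this
  have htr : tr ≠ 0 := by
    rintro rfl
    exact htrv rfl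
  have hb := F.alpha_bijective ω hω tr htr hX ρ hρ
  rw [(LinearEquiv.ofBijective _ hb).finrank_eq, Subspace.dual_finrank_eq]

end

end Fermat.Agent.S55.F
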